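/-
S55 / layer G / G-SIND:UCT (helper95).  Part 2 (layer T only).

For a FINITE module `A` over a finite group `G`:
if `H¹(H, A) = 0` for every subgroup `H ≤ G`, then `H²(H, A) = 0` for every subgroup `H ≤ G`.
(Sylow reduction, `p`-group induction with inflation–restriction in degree 2, and the Herbrand
quotient of a finite module over a cyclic group.)
-/
import Fermat.Agent.S55.T.HerbrandH895
import Fermat.Agent.S55.T.InfRes2H954
import Fermat.Agent.S55.T.UglyH954

set_option autoImplicit false
set_option linter.unusedSectionVars false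
set_option linter.style.haveILetI false

namespace Fermat.Agent.S55.G.SIndH237.H95

open CategoryTheory groupCohomology Fermat.Agent.S55.T

section FinVanish

variable {k G : Type} [CommRing k] [Group G] [Finite G] (A : Rep.{0} k G)

lemma isZero_of_forall_eq_zero {M : ModuleCat.{0} k} (h : ∀ x : M, x = 0) : Limits.IsZero M := by
  haveI : Subsingleton M := ⟨fun a b => (h a).trans (h b).symm⟩
  exact ModuleCat.isZero_of_subsingleton M

lemma eq_zero_of_isZero {M : ModuleCat.{0} k} (h : Limits.IsZero M) (x : M) : x = 0 :=
  (ModuleCat.isZero_iff_subsingleton.1 h).elim x 0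

/-- The cyclic prime-order step: `H²(G ⧸ K, A^K) = 0` if `A` is finite, `G ⧸ K` has prime order
and `H¹(G, A) = 0`. -/
theorem isZero_H2_quotient_of_prime (hfin : Finite A.V) (K : Subgroup G) [K.Normal]
    (hp : (Nat.card (G ⧸ K)).Prime) (h1 : Limits.IsZero (groupCohomology A 1)) :
    Limits.IsZero (groupCohomology (A.quotientToInvariants K) 2) := by
  haveI : Fact (Nat.card (G ⧸ K)).Prime := ⟨hp⟩
  haveI : IsCyclic (G ⧸ K) := isCyclic_of_prime_card rfl
  have hfinB : Finite (A.quotientToInvariants K).V := by
    change Finite ↥(Representation.invariants (MonoidHom.comp A.ρ K.subtype))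
    exact Finite.of_injective (fun x => (x : A.V)) Subtype.val_injective
  obtain ⟨hf1, hf2, hcard⟩ := Fermat.Agent.S55.T.H895.herbrandFinite k (G ⧸ K)
    (A.quotientToInvariants K) hfinB
  have hinj : Function.Injective (H1InfRes A K).f.hom :=
    (ModuleCat.mono_iff_injective _).1 inferInstance
  have hsub1 : Subsingleton (groupCohomology (A.quotientToInvariants K) 1) := by
    refine ⟨fun a b => hinj ?_⟩
    exact (ModuleCat.isZero_iff_subsingleton.1 h1).elim _ _
  have hc1 : Nat.card (groupCohomology (A.quotientToInvariants K) 1) = 1 :=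
    Nat.card_of_subsingleton 0
  rw [hc1] at hcard
  haveI := hf2
  haveI : Subsingleton (groupCohomology (A.quotientToInvariants K) 2) :=
    (Nat.card_eq_one_iff_unique.1 hcard.symm).1
  exact ModuleCat.isZero_of_subsingleton _

/-- The `p`-group case, by induction on the order. -/
theorem isZero_H2_of_finite_pgroup (hfin : Finite A.V)
    (h1 : ∀ H : Subgroup G, Limits.IsZero (groupCohomology (resSub A H) 1))
    (p : ℕ) [hp : Fact p.Prime] :
    ∀ (n : ℕ) (H : Subgroup G), Nat.card H = p ^ n →
      Limits.IsZero (groupCohomology (resSub A H) 2) := by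
  intro n
  induction n with
  | zero =>
    intro H hH
    rw [pow_zero] at hH
    exact isZero_of_forall_eq_zero
      (Fermat.Agent.S55.H954.H2_eq_zero_of_card_eq_one (resSub A H) hH)
  | succ n ih =>
    intro H hH
    obtain ⟨K, hK⟩ := Sylow.exists_subgroup_card_pow_prime (G := ↥H) p (n := n)
      (by rw [hH]; exact pow_dvd_pow p (Nat.le_succ n))
    have hidx : K.index = p := by
      have h := K.card_mul_index
      rw [hK, hH, pow_succ] at h
      exact Nat.eq_of_mul_eq_mul_left (pow_pos hp.out.pos n) h
    haveI hKn : K.Normal := Subgroup.normal_of_index_eq_minFac_card (by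
      rw [hidx, hH, Nat.pow_minFac (Nat.succ_ne_zero n), hp.out.minFac_eq])
    have hq : Nat.card (↥H ⧸ K) = p := by rw [← Subgroup.index_eq_card]; exact hidx
    have hQ : Limits.IsZero (groupCohomology ((resSub A H).quotientToInvariants K) 2) :=
      isZero_H2_quotient_of_prime (resSub A H) hfin K (by rw [hq]; exact hp.out) (h1 H)
    have hK' : Nat.card (K.map H.subtype) = p ^ n :=
      (Fermat.Agent.S55.T.H954.card_map_subtype H K).trans hK
    have IH := ih (K.map H.subtype) hK'
    have hK2 : Limits.IsZero (groupCohomology (resSub (resSub A H) K) 2) :=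
      isZero_of_forall_eq_zero
        (Fermat.Agent.S55.T.H954.eq_zero_of_iso_of_isZero
          (Fermat.Agent.S55.T.H954.resResIso A H K 2) IH)
    have hK1 : Limits.IsZero (groupCohomology (resSub (resSub A H) K) 1) :=
      isZero_of_forall_eq_zero
        (Fermat.Agent.S55.T.H954.eq_zero_of_iso_of_isZero
          (Fermat.Agent.S55.T.H954.resResIso A H K 1) (h1 (K.map H.subtype)))
    obtain ⟨-, -, hex⟩ := Fermat.Agent.S55.T.H954.infRes2 k H (resSub A H) K hK1
    refine isZero_of_forall_eq_zero fun x => ?_
    obtain ⟨y, hy⟩ := hex x (eq_zero_of_isZero hK2 _)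
    rw [← hy, eq_zero_of_isZero hQ y, map_zero]

/-- **Finite modules**: vanishing of `H¹` on all subgroups implies vanishing of `H²` on all
subgroups. -/
theorem isZero_H2_of_finite (hfin : Finite A.V)
    (h1 : ∀ H : Subgroup G, Limits.IsZero (groupCohomology (resSub A H) 1))
    (H : Subgroup G) : Limits.IsZero (groupCohomology (resSub A H) 2) := by
  refine isZero_of_forall_eq_zero fun x => ?_
  refine Fermat.Agent.S55.H119.eq_zero_of_forall_sylow_resMap_eq_zero_two (resSub A H) x
    fun p hp => ?_
  haveI : Fact p.Prime := ⟨hp⟩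
  obtain ⟨P⟩ : Nonempty (Sylow p H) := inferInstance
  refine ⟨P, ?_⟩
  have hP : Nat.card (P : Subgroup H) = p ^ ((Nat.card H).factorization p) :=
    Sylow.card_eq_multiplicity P
  have hP' : Nat.card ((P : Subgroup H).map H.subtype) = p ^ ((Nat.card H).factorization p) :=
    (Fermat.Agent.S55.T.H954.card_map_subtype H (P : Subgroup H)).trans hP
  have hz := isZero_H2_of_finite_pgroup A hfin h1 p _ ((P : Subgroup H).map H.subtype) hP'
  exact Fermat.Agent.S55.T.H954.eq_zero_of_iso_of_isZero
    (Fermat.Agent.S55.T.H954.resResIso A H (P : Subgroup H) 2) hz _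

/-- The same for the full group. -/
theorem isZero_H2_self_of_finite (hfin : Finite A.V)
    (h1 : ∀ H : Subgroup G, Limits.IsZero (groupCohomology (resSub A H) 1)) :
    Limits.IsZero (groupCohomology A 2) := by
  refine isZero_of_forall_eq_zero fun x => ?_
  refine Fermat.Agent.S55.H119.eq_zero_of_forall_sylow_resMap_eq_zero_two A x fun p hp => ?_
  haveI : Fact p.Prime := ⟨hp⟩
  obtain ⟨P⟩ : Nonempty (Sylow p G) := inferInstance
  exact ⟨P, eq_zero_of_isZero (isZero_H2_of_finite_pgroup A hfin h1 p _ (P : Subgroup G)
    (Sylow.card_eq_multiplicity P)) _⟩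

end FinVanish

end Fermat.Agent.S55.G.SIndH237.H95
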