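/-
S55 / layer G / G-SIND:UCT (helper95).  Part 1 (Mathlib only).

Hilbert 90 for the unit group of a commutative ring `A` with finitely many maximal ideals on
which a finite group `H` acts with trivial inertia at every maximal ideal ("Galois action"):
every multiplicative `1`-cocycle `H → Aˣ` is a coboundary, and `A` contains an element of
trace `1`.  Proof: Poincaré series `θ(z) = ∑_h c(h) · h(z)` + Dedekind independence of
characters + Chinese remainder theorem.
-/
import Mathlib

set_option autoImplicit false
set_option linter.unusedSectionVars false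
set_option linter.style.haveILetI false

namespace Fermat.Agent.S55.G.SIndH237.H95

open groupCohomology

/-- The action of `H` on the units of a ring on which it acts by ring automorphisms
(a definition, NOT a global instance; use `attribute [local instance]` or `letI`). -/
@[reducible] def unitsAct (H A : Type*) [Group H] [CommRing A] [MulSemiringAction H A] :
    MulDistribMulAction H Aˣ where
  smul g u := Units.map (MulSemiringAction.toRingHom H A g : A →* A) u
  one_smul u := Units.ext (one_smul H (u : A))
  mul_smul g h u := Units.ext (mul_smul g h (u : A))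
  smul_mul g u v := Units.ext (smul_mul' g (u : A) (v : A))
  smul_one g := Units.ext (smul_one g)

attribute [local instance] unitsAct

lemma coe_unitsAct_smul {H A : Type*} [Group H] [CommRing A] [MulSemiringAction H A]
    (g : H) (u : Aˣ) : ((g • u : Aˣ) : A) = g • (u : A) := rfl

section Core

variable {A : Type*} [CommRing A] {H : Type*} [Group H] [Fintype H] [MulSemiringAction H A]

/-- The Poincaré series of a `1`-cochain `c : H → Aˣ`. -/
def theta (c : H → Aˣ) (z : A) : A := ∑ h : H, (c h : A) * h • z

lemma theta_add (c : H → Aˣ) (z w : A) : theta c (z + w) = theta c z + theta c w := by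
  simp only [theta, smul_add, mul_add, Finset.sum_add_distrib]

lemma theta_mul_of_invariant (c : H → Aˣ) (a z : A) (ha : ∀ h : H, h • a = a) :
    theta c (a * z) = a * theta c z := by
  simp only [theta, smul_mul', ha, Finset.mul_sum]
  refine Finset.sum_congr rfl fun h _ => ?_
  ring

/-- The functional equation of the Poincaré series of a `1`-cocycle. -/
lemma mul_smul_theta (c : H → Aˣ) (hc : IsMulCocycle₁ c) (g : H) (z : A) :
    (c g : A) * g • theta c z = theta c z := by
  have h1 : ∀ h : H, (c g : A) * g • ((c h : A) * h • z) = (c (g * h) : A) * (g * h) • z := by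
    intro h
    rw [smul_mul', hc g h, Units.val_mul, mul_smul, coe_unitsAct_smul]
    ring
  rw [theta, Finset.smul_sum, Finset.mul_sum]
  rw [Finset.sum_congr rfl fun h _ => h1 h]
  exact Fintype.sum_equiv (Equiv.mulLeft g) _ _ fun h => rfl

lemma smul_theta_mem_iff (c : H → Aˣ) (hc : IsMulCocycle₁ c) (g : H) (z : A) (m : Ideal A) :
    g • theta c z ∈ m ↔ theta c z ∈ m := by
  constructor
  · intro h
    rw [← mul_smul_theta c hc g z]
    exact m.mul_mem_left _ h
  · intro h
    have h2 : g • theta c z = ((c g)⁻¹ : Aˣ) * theta c z := by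
      conv_rhs => rw [← mul_smul_theta c hc g z, ← mul_assoc, Units.inv_mul, one_mul]
    rw [h2]
    exact m.mul_mem_left _ h

/-- Dedekind independence: at a maximal ideal with trivial inertia the Poincaré series is not
identically zero. -/
lemma exists_theta_notMem (c : H → Aˣ) (m : Ideal A) [hm : m.IsMaximal]
    (hin : ∀ h : H, (∀ x : A, h • x - x ∈ m) → h = 1) : ∃ z : A, theta c z ∉ m := by
  classical
  by_contra hcon
  push Not at hcon
  letI : Field (A ⧸ m) := Ideal.Quotient.field m
  let φ : H → (A →* (A ⧸ m)) := fun h =>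
    ((Ideal.Quotient.mk m).comp (MulSemiringAction.toRingHom H A h)).toMonoidHom
  have hφ : ∀ (h : H) (x : A), φ h x = Ideal.Quotient.mk m (h • x) := fun _ _ => rfl
  have hinj : Function.Injective φ := by
    intro h h' hh
    have h1 : h * h'⁻¹ = 1 := by
      refine hin _ fun x => ?_
      have h2 : φ h (h'⁻¹ • x) = φ h' (h'⁻¹ • x) := by rw [hh]
      rw [hφ, hφ, smul_inv_smul, Ideal.Quotient.eq, ← mul_smul] at h2
      exact h2
    exact mul_inv_eq_one.1 h1
  have hli := (linearIndependent_monoidHom A (A ⧸ m)).comp φ hinj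
  rw [Fintype.linearIndependent_iff] at hli
  have h0 := hli (fun h => Ideal.Quotient.mk m (c h : A)) (by
    funext x
    simp only [Function.comp_apply, Finset.sum_apply, Pi.smul_apply, smul_eq_mul, Pi.zero_apply,
      hφ]
    rw [← Ideal.Quotient.eq_zero_iff_mem.2 (hcon x), theta, map_sum]
    simp only [map_mul]) 1
  rw [Ideal.Quotient.eq_zero_iff_mem] at h0
  exact hm.ne_top (Ideal.eq_top_of_isUnit_mem _ h0 (c 1).isUnit)

/-- An `H`-invariant element of `A` lying in the maximal ideals of a finite `H`-stable "good" set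
and outside those of the complementary "bad" set. -/
lemma exists_invariant_separating (S : Finset (Ideal A)) (hS : ∀ m ∈ S, m.IsMaximal)
    (hst : ∀ m ∈ S, ∀ h : H, m.comap (MulSemiringAction.toRingHom H A h) ∈ S)
    (bad : Ideal A → Prop) (hbad : ∀ m ∈ S, bad m → ∀ h : H,
      bad (m.comap (MulSemiringAction.toRingHom H A h))) :
    ∃ a : A, (∀ h : H, h • a = a) ∧ (∀ m ∈ S, ¬ bad m → a ∈ m) ∧ (∀ m ∈ S, bad m → a ∉ m) := by
  classical
  have hcop : Pairwise (Function.onFun IsCoprime fun i : S => (i : Ideal A)) := by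
    intro i j hij
    haveI := hS i.1 i.2
    haveI := hS j.1 j.2
    exact Ideal.isCoprime_of_isMaximal fun h => hij (Subtype.ext h)
  obtain ⟨a₀, ha₀⟩ := Ideal.exists_forall_sub_mem_ideal hcop
    (fun i : S => if bad i.1 then (1 : A) else 0)
  refine ⟨∏ h : H, h • a₀, fun g => ?_, fun m hm hb => ?_, fun m hm hb hcon => ?_⟩
  · rw [Finset.smul_prod']
    simp only [← mul_smul]
    exact Fintype.prod_equiv (Equiv.mulLeft g) _ _ fun h => rfl
  · have h1 := ha₀ ⟨m, hm⟩
    simp only [hb, if_false, sub_zero] at h1
    have h2 : (1 : H) • a₀ ∈ m := by rwa [one_smul]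
    exact Ideal.prod_mem m (Finset.mem_univ (1 : H)) h2
  · haveI := hS m hm
    obtain ⟨h, -, hh⟩ := Ideal.IsPrime.prod_mem_iff.1 hcon
    have h1 := ha₀ ⟨m.comap (MulSemiringAction.toRingHom H A h), hst m hm h⟩
    simp only [hbad m hm hb h, if_true] at h1
    have h2 : a₀ ∈ m.comap (MulSemiringAction.toRingHom H A h) := hh
    have h3 := (Ideal.sub_mem _ h2 h1)
    rw [sub_sub_cancel] at h3
    have hmax : (m.comap (MulSemiringAction.toRingHom H A h)).IsMaximal := hS _ (hst m hm h)
    exact hmax.ne_top ((Ideal.eq_top_iff_one _).2 h3)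

/-- **Key lemma.**  If `A` has finitely many maximal ideals, all with trivial inertia, then the
Poincaré series of any `1`-cocycle takes a unit value. -/
theorem exists_isUnit_theta (hfin : {m : Ideal A | m.IsMaximal}.Finite)
    (hin : ∀ m : Ideal A, m.IsMaximal → ∀ h : H, (∀ x : A, h • x - x ∈ m) → h = 1)
    (c : H → Aˣ) (hc : IsMulCocycle₁ c) : ∃ z : A, IsUnit (theta c z) := by
  classical
  set S : Finset (Ideal A) := hfin.toFinset with hSdef
  have hS : ∀ m, m ∈ S ↔ m.IsMaximal := fun m => by rw [hSdef, Set.Finite.mem_toFinset]; rfl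
  have hst : ∀ m ∈ S, ∀ h : H, m.comap (MulSemiringAction.toRingHom H A h) ∈ S := by
    intro m hm h
    rw [hS] at hm ⊢
    haveI := hm
    exact Ideal.comap_isMaximal_of_surjective _
      (MulSemiringAction.toRingEquiv H A h).surjective
  have key : ∀ n : ℕ, ∀ z : A, (S.filter fun m => theta c z ∈ m).card = n →
      ∃ z' : A, IsUnit (theta c z') := by
    intro n
    induction n using Nat.strong_induction_on with
    | _ n ih =>
      intro z hz
      by_cases hempty : (S.filter fun m => theta c z ∈ m) = ∅
      · refine ⟨z, ?_⟩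
        by_contra hnu
        obtain ⟨m, hm, hmem⟩ := exists_max_ideal_of_mem_nonunits hnu
        have : m ∈ S.filter fun m => theta c z ∈ m :=
          Finset.mem_filter.2 ⟨(hS m).2 hm, hmem⟩
        rw [hempty] at this
        exact absurd this (Finset.notMem_empty m)
      · obtain ⟨n₀, hn₀⟩ := Finset.nonempty_iff_ne_empty.2 hempty
        obtain ⟨hn₀S, hn₀b⟩ := Finset.mem_filter.1 hn₀
        haveI hn₀max : n₀.IsMaximal := (hS n₀).1 hn₀S
        obtain ⟨z₀, hz₀⟩ := exists_theta_notMem c n₀ (hin n₀ hn₀max)
        obtain ⟨a, hainv, hagood, habad⟩ := exists_invariant_separating S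
          (fun m hm => (hS m).1 hm) hst (fun m => theta c z ∈ m)
          (fun m _ hb h => (smul_theta_mem_iff c hc h z m).2 hb)
        have hth : theta c (z + a * z₀) = theta c z + a * theta c z₀ := by
          rw [theta_add, theta_mul_of_invariant c a z₀ hainv]
        have hsub : (S.filter fun m => theta c (z + a * z₀) ∈ m) ⊂
            (S.filter fun m => theta c z ∈ m) := by
          refine Finset.ssubset_iff_of_subset ?_ |>.2 ⟨n₀, hn₀, ?_⟩
          · intro m hm
            obtain ⟨hmS, hmb⟩ := Finset.mem_filter.1 hm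
            refine Finset.mem_filter.2 ⟨hmS, ?_⟩
            by_contra hgood
            rw [hth] at hmb
            have := (Ideal.add_mem_iff_left m (m.mul_mem_right _ (hagood m hmS hgood))).1 hmb
            exact hgood this
          · intro hcon
            obtain ⟨-, hb⟩ := Finset.mem_filter.1 hcon
            rw [hth] at hb
            have h1 := (Ideal.add_mem_iff_right n₀ hn₀b).1 hb
            rcases (inferInstance : n₀.IsPrime).mem_or_mem h1 with h2 | h2
            · exact habad n₀ hn₀S hn₀b h2
            · exact hz₀ h2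
        exact ih _ (hz ▸ Finset.card_lt_card hsub) (z + a * z₀) rfl
  exact key _ 0 rfl

/-- **Hilbert 90** for rings with finitely many maximal ideals and trivial inertia. -/
theorem isMulCoboundary₁_of_trivial_inertia (hfin : {m : Ideal A | m.IsMaximal}.Finite)
    (hin : ∀ m : Ideal A, m.IsMaximal → ∀ h : H, (∀ x : A, h • x - x ∈ m) → h = 1)
    (c : H → Aˣ) (hc : IsMulCocycle₁ c) : IsMulCoboundary₁ c := by
  obtain ⟨z, hz⟩ := exists_isUnit_theta hfin hin c hc
  refine ⟨hz.unit⁻¹, fun g => ?_⟩
  have h1 : c g * g • hz.unit = hz.unit := Units.ext (by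
    rw [Units.val_mul, coe_unitsAct_smul, IsUnit.unit_spec]
    exact mul_smul_theta c hc g z)
  have h2 : g • hz.unit = (c g)⁻¹ * hz.unit := by
    rw [eq_inv_mul_iff_mul_eq]
    exact h1
  rw [smul_inv', h2, mul_inv, inv_inv, div_eq_mul_inv, inv_inv, mul_assoc, inv_mul_cancel,
    mul_one]

/-- An element of trace `1`. -/
theorem exists_trace_eq_one (hfin : {m : Ideal A | m.IsMaximal}.Finite)
    (hin : ∀ m : Ideal A, m.IsMaximal → ∀ h : H, (∀ x : A, h • x - x ∈ m) → h = 1) :
    ∃ b : A, ∑ h : H, h • b = 1 := by
  have hc : IsMulCocycle₁ (fun _ : H => (1 : Aˣ)) := fun g h => by simp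
  obtain ⟨z, u, hu⟩ := exists_isUnit_theta hfin hin _ hc
  have hinv : ∀ g : H, g • (u : A) = u := by
    intro g
    have := mul_smul_theta _ hc g z
    rw [← hu] at this
    simpa using this
  have hth : (u : A) = ∑ h : H, h • z := by
    rw [hu]
    simp [theta]
  have hinv' : ∀ g : H, g • ((u⁻¹ : Aˣ) : A) = ((u⁻¹ : Aˣ) : A) := by
    intro g
    have h1 : g • ((u⁻¹ : Aˣ) : A) * u = 1 := by
      conv_lhs => rw [← hinv g, ← smul_mul']
      rw [Units.inv_mul, smul_one]
    calc g • ((u⁻¹ : Aˣ) : A)
        = g • ((u⁻¹ : Aˣ) : A) * (u * ((u⁻¹ : Aˣ) : A)) := by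
          rw [Units.mul_inv, mul_one]
      _ = ((u⁻¹ : Aˣ) : A) := by rw [← mul_assoc, h1, one_mul]
  refine ⟨z * ((u⁻¹ : Aˣ) : A), ?_⟩
  simp only [smul_mul', hinv']
  rw [← Finset.sum_mul, ← hth, Units.mul_inv]

end Core

end Fermat.Agent.S55.G.SIndH237.H95
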