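/-
S55 / layer G / G-SIND:UCT (helper95).  Part 3 (Mathlib only).

The filtration `Fil n = {u ∈ Rˣ : u ≡ 1 mod Iⁿ}` of the unit group of a ring `R` which is
complete for an ideal `I`; the induced action on `R ⧸ I`; lifting of units.
-/
import Fermat.Agent.S55.G.SIndH237.H95.SemiLocal

set_option autoImplicit false
set_option linter.unusedSectionVars false
set_option linter.style.haveILetI false

namespace Fermat.Agent.S55.G.SIndH237.H95

attribute [local instance] unitsAct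

section Units

variable {R : Type*} [CommRing R] (I : Ideal R)

lemma isUnit_one_add_of_mem (hJ : I ≤ Ideal.jacobson ⊥) {x : R} (hx : x ∈ I) :
    IsUnit (1 + x) := by
  have := Ideal.mem_jacobson_bot.1 (hJ hx) 1
  rwa [mul_one, add_comm] at this

lemma isUnit_of_sub_mem (hJ : I ≤ Ideal.jacobson ⊥) (u : Rˣ) {x : R} (h : x - u ∈ I) :
    IsUnit x := by
  have h1 : x = u * (1 + ((u⁻¹ : Rˣ) : R) * (x - u)) := by
    rw [mul_add, mul_one, ← mul_assoc, Units.mul_inv, one_mul]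
    ring
  rw [h1]
  exact u.isUnit.mul (isUnit_one_add_of_mem I hJ (I.mul_mem_left _ h))

/-- Units of `R ⧸ I` lift to units of `R` when `I` lies in the Jacobson radical. -/
lemma exists_unit_lift (hJ : I ≤ Ideal.jacobson ⊥) (v : (R ⧸ I)ˣ) :
    ∃ u : Rˣ, Ideal.Quotient.mk I (u : R) = (v : R ⧸ I) := by
  obtain ⟨r, hr⟩ := Ideal.Quotient.mk_surjective (v : R ⧸ I)
  obtain ⟨r', hr'⟩ := Ideal.Quotient.mk_surjective ((v⁻¹ : (R ⧸ I)ˣ) : R ⧸ I)
  have h1 : r * r' - 1 ∈ I := by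
    rw [← Ideal.Quotient.eq, map_mul, hr, hr', Units.mul_inv, map_one]
  have h2 : IsUnit (r * r') := isUnit_of_sub_mem I hJ 1 (by simpa using h1)
  have h3 : IsUnit r := isUnit_of_mul_isUnit_left h2
  exact ⟨h3.unit, by rw [IsUnit.unit_spec, hr]⟩

/-- The subgroup of units congruent to `1` modulo `Iⁿ`. -/
def unitFil (n : ℕ) : Subgroup Rˣ where
  carrier := {u | (u : R) - 1 ∈ I ^ n}
  one_mem' := by simp
  mul_mem' {a b} ha hb := by
    have h : ((a * b : Rˣ) : R) - 1 = (a : R) * ((b : R) - 1) + ((a : R) - 1) := by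
      push_cast; ring
    change ((a * b : Rˣ) : R) - 1 ∈ I ^ n
    rw [h]
    exact (I ^ n).add_mem ((I ^ n).mul_mem_left _ hb) ha
  inv_mem' {a} ha := by
    have h : ((a⁻¹ : Rˣ) : R) - 1 = -(((a⁻¹ : Rˣ) : R) * ((a : R) - 1)) := by
      rw [mul_sub, Units.inv_mul]; ring
    change ((a⁻¹ : Rˣ) : R) - 1 ∈ I ^ n
    rw [h]
    exact (I ^ n).neg_mem ((I ^ n).mul_mem_left _ ha)

lemma mem_unitFil_iff (n : ℕ) (u : Rˣ) : u ∈ unitFil I n ↔ (u : R) - 1 ∈ I ^ n := Iff.rfl

lemma div_mem_unitFil_iff (n : ℕ) (a b : Rˣ) :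
    a / b ∈ unitFil I n ↔ (a : R) - (b : R) ∈ I ^ n := by
  rw [mem_unitFil_iff]
  have h1 : ((a / b : Rˣ) : R) - 1 = ((a : R) - b) * ((b⁻¹ : Rˣ) : R) := by
    rw [div_eq_mul_inv, Units.val_mul, sub_mul, Units.mul_inv]
  have h2 : (a : R) - b = (((a / b : Rˣ) : R) - 1) * b := by
    rw [h1, mul_assoc, Units.inv_mul, mul_one]
  constructor
  · intro h; rw [h2]; exact (I ^ n).mul_mem_right _ h
  · intro h; rw [h1]; exact (I ^ n).mul_mem_right _ h

lemma unitFil_anti (n : ℕ) : unitFil I (n + 1) ≤ unitFil I n :=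
  fun _ hu => Ideal.pow_le_pow_right (Nat.le_succ n) hu

lemma unitFil_antitone {m n : ℕ} (h : m ≤ n) : unitFil I n ≤ unitFil I m :=
  fun _ hu => Ideal.pow_le_pow_right h hu

lemma mem_unitFil_zero (u : Rˣ) : u ∈ unitFil I 0 := by
  rw [mem_unitFil_iff, pow_zero, Ideal.one_eq_top]
  exact Submodule.mem_top

lemma unitFil_separated [IsHausdorff I R] (x : Rˣ) (hx : ∀ j, x ∈ unitFil I j) : x = 1 := by
  have h : (x : R) - 1 = 0 := by
    refine IsHausdorff.haus ‹IsHausdorff I R› _ fun n => ?_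
    rw [SModEq.zero, smul_eq_mul, Ideal.mul_top]
    exact hx n
  exact Units.ext (by rw [Units.val_one]; exact sub_eq_zero.1 h)

lemma unitFil_complete [IsAdicComplete I R] (u : ℕ → Rˣ) (hu : ∀ j, u j ∈ unitFil I j) :
    ∃ s : Rˣ, ∀ n, s / ∏ j ∈ Finset.range n, u j ∈ unitFil I n := by
  have hJ : I ≤ Ideal.jacobson ⊥ := IsAdicComplete.le_jacobson_bot I
  have hcauchy : ∀ {m n : ℕ}, m ≤ n →
      (((∏ j ∈ Finset.range m, u j : Rˣ) : R)) ≡ (((∏ j ∈ Finset.range n, u j : Rˣ) : R))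
        [SMOD (I ^ m • ⊤ : Submodule R R)] := by
    intro m n hmn
    rw [SModEq.sub_mem, smul_eq_mul, Ideal.mul_top, ← div_mem_unitFil_iff]
    have h1 : (∏ j ∈ Finset.range m, u j) / ∏ j ∈ Finset.range n, u j =
        (∏ j ∈ Finset.Ico m n, u j)⁻¹ := by
      rw [Finset.prod_Ico_eq_div u hmn, inv_div]
    rw [h1]
    refine (unitFil I m).inv_mem (Subgroup.prod_mem _ fun j hj => ?_)
    exact unitFil_antitone I (Finset.mem_Ico.1 hj).1 (hu j)
  obtain ⟨L, hL⟩ := IsPrecomplete.prec ‹IsAdicComplete I R›.toIsPrecomplete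
    (f := fun n => ((∏ j ∈ Finset.range n, u j : Rˣ) : R)) hcauchy
  have hL' : ∀ n, L - ((∏ j ∈ Finset.range n, u j : Rˣ) : R) ∈ I ^ n := by
    intro n
    have := (hL n).symm
    rwa [SModEq.sub_mem, smul_eq_mul, Ideal.mul_top] at this
  have hLu : IsUnit L := by
    refine isUnit_of_sub_mem I hJ (∏ j ∈ Finset.range 1, u j) ?_
    have := hL' 1
    rwa [pow_one] at this
  refine ⟨hLu.unit, fun n => ?_⟩
  rw [div_mem_unitFil_iff, IsUnit.unit_spec]
  exact hL' n

end Units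

section Action

variable {R : Type*} [CommRing R] {H : Type*} [Group H] [MulSemiringAction H R] (I : Ideal R)

lemma smul_mem_pow (hI : ∀ (h : H) (x : R), x ∈ I → h • x ∈ I) (n : ℕ) (h : H) {x : R}
    (hx : x ∈ I ^ n) : h • x ∈ I ^ n := by
  have h1 : I.map (MulSemiringAction.toRingHom H R h) ≤ I := by
    rw [Ideal.map_le_iff_le_comap]
    exact fun y hy => hI h y hy
  have h2 : (I ^ n).map (MulSemiringAction.toRingHom H R h) ≤ I ^ n := by
    rw [Ideal.map_pow]
    exact Ideal.pow_right_mono h1 n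
  exact h2 (Ideal.mem_map_of_mem _ hx)

lemma smul_mem_unitFil (hI : ∀ (h : H) (x : R), x ∈ I → h • x ∈ I) (n : ℕ) (h : H) {u : Rˣ}
    (hu : u ∈ unitFil I n) : h • u ∈ unitFil I n := by
  rw [mem_unitFil_iff] at hu ⊢
  have := smul_mem_pow I hI n h hu
  rwa [smul_sub, smul_one] at this

lemma le_comap_of_stable (hI : ∀ (h : H) (x : R), x ∈ I → h • x ∈ I) (h : H) :
    I ≤ I.comap (MulSemiringAction.toRingHom H R h) := fun x hx => hI h x hx

/-- The ring endomorphism of `R ⧸ I` induced by `h ∈ H`. -/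
def quotMap (hI : ∀ (h : H) (x : R), x ∈ I → h • x ∈ I) (h : H) : R ⧸ I →+* R ⧸ I :=
  Ideal.quotientMap I (MulSemiringAction.toRingHom H R h) (le_comap_of_stable I hI h)

lemma quotMap_mk (hI : ∀ (h : H) (x : R), x ∈ I → h • x ∈ I) (h : H) (r : R) :
    quotMap I hI h (Ideal.Quotient.mk I r) = Ideal.Quotient.mk I (h • r) := rfl

/-- The action induced on `R ⧸ I` by an action on `R` stabilising `I`
(a definition, NOT a global instance). -/
@[reducible] def quotAct (hI : ∀ (h : H) (x : R), x ∈ I → h • x ∈ I) :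
    MulSemiringAction H (R ⧸ I) where
  smul h := quotMap I hI h
  one_smul x := by
    obtain ⟨r, rfl⟩ := Ideal.Quotient.mk_surjective x
    change quotMap I hI 1 (Ideal.Quotient.mk I r) = _
    rw [quotMap_mk, one_smul]
  mul_smul g h x := by
    obtain ⟨r, rfl⟩ := Ideal.Quotient.mk_surjective x
    change quotMap I hI (g * h) (Ideal.Quotient.mk I r) =
      quotMap I hI g (quotMap I hI h (Ideal.Quotient.mk I r))
    simp only [quotMap_mk, mul_smul]
  smul_zero h := map_zero (quotMap I hI h)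
  smul_add h x y := map_add (quotMap I hI h) x y
  smul_one h := map_one (quotMap I hI h)
  smul_mul h x y := map_mul (quotMap I hI h) x y

lemma quotAct_smul_mk (hI : ∀ (h : H) (x : R), x ∈ I → h • x ∈ I) (h : H) (r : R) :
    letI := quotAct I hI
    h • (Ideal.Quotient.mk I r) = Ideal.Quotient.mk I (h • r) := rfl

end Action

end Fermat.Agent.S55.G.SIndH237.H95
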