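/-
S55 / layer G / G-SIND:UCT (helper95).  Part 4 (Mathlib only).

The graded step of the successive approximation for `2`-cocycles with values in the units of a
ring `R` containing an element `b` of trace `1`: a `2`-cocycle `≡ 1 mod Iʲ` (`j ≥ 1`) is
cohomologous, through a cochain `≡ 1 mod Iʲ`, to a `2`-cocycle `≡ 1 mod Iʲ⁺¹`.
-/
import Fermat.Agent.S55.G.SIndH237.H95.UnitFil

set_option autoImplicit false
set_option linter.unusedSectionVars false
set_option linter.style.haveILetI false

namespace Fermat.Agent.S55.G.SIndH237.H95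

open groupCohomology

attribute [local instance] unitsAct

section Graded

variable {R : Type*} [CommRing R] {H : Type*} [Group H] [Fintype H] [MulSemiringAction H R]
  (I : Ideal R)

lemma mul_mem_pow_succ {j : ℕ} (hj : 1 ≤ j) {a b : R} (ha : a ∈ I ^ j) (hb : b ∈ I ^ j) :
    a * b ∈ I ^ (j + 1) := by
  have h1 : a * b ∈ I ^ j * I ^ j := Ideal.mul_mem_mul ha hb
  rw [← pow_add] at h1
  exact Ideal.pow_le_pow_right (by omega) h1

/-- The homotopy operator attached to an element `b` (of trace `1`). -/
def homotopy (b : R) (α : H × H → R) (g : H) : R := ∑ k : H, (g * k) • b * α (g, k)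

lemma homotopy_mem (b : R) (α : H × H → R) (J : Ideal R) (hα : ∀ p, α p ∈ J) (g : H) :
    homotopy b α g ∈ J :=
  J.sum_mem fun _ _ => J.mul_mem_left _ (hα _)

/-- The additive homotopy formula, with an error term controlled by the cocycle defect. -/
lemma homotopy_formula (b : R) (hb : ∑ h : H, h • b = 1) (α : H × H → R) (g h : H) :
    g • homotopy b α h - homotopy b α (g * h) + homotopy b α g - α (g, h) =
      ∑ k : H, (g * h * k) • b *
        (g • α (h, k) - α (g * h, k) + α (g, h * k) - α (g, h)) := by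
  have h1 : g • homotopy b α h = ∑ k : H, (g * h * k) • b * g • α (h, k) := by
    rw [homotopy, Finset.smul_sum]
    refine Finset.sum_congr rfl fun k _ => ?_
    rw [smul_mul', ← mul_smul, mul_assoc]
  have h2 : homotopy b α g = ∑ k : H, (g * h * k) • b * α (g, h * k) := by
    rw [homotopy]
    refine (Fintype.sum_equiv (Equiv.mulLeft h) _ _ fun k => ?_).symm
    simp only [Equiv.coe_mulLeft, mul_assoc]
  have h3 : α (g, h) = ∑ k : H, (g * h * k) • b * α (g, h) := by
    rw [← Finset.sum_mul]
    have : ∑ k : H, (g * h * k) • b = 1 := by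
      rw [← hb]
      exact Fintype.sum_equiv (Equiv.mulLeft (g * h)) _ _ fun k => rfl
    rw [this, one_mul]
  rw [h1, h2, homotopy]
  conv_lhs => rw [h3]
  simp only [← Finset.sum_sub_distrib, ← Finset.sum_add_distrib]
  refine Finset.sum_congr rfl fun k _ => ?_
  ring

/-- **Graded step** (`j ≥ 1`). -/
theorem graded_step₂ (hJ : I ≤ Ideal.jacobson ⊥)
    (hI : ∀ (h : H) (x : R), x ∈ I → h • x ∈ I) (b : R) (hb : ∑ h : H, h • b = 1)
    (j : ℕ) (hj : 1 ≤ j) (c : H × H → Rˣ) (hc : IsMulCocycle₂ c)
    (hcj : ∀ p, c p ∈ unitFil I j) :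
    ∃ x : H → Rˣ, (∀ g, x g ∈ unitFil I j) ∧
      ∀ g h, c (g, h) / (g • x h / x (g * h) * x g) ∈ unitFil I (j + 1) := by
  obtain ⟨α, hαc, hαj⟩ : ∃ α : H × H → R, (∀ p, (c p : R) = 1 + α p) ∧ ∀ p, α p ∈ I ^ j :=
    ⟨fun p => (c p : R) - 1, fun p => by ring, fun p => hcj p⟩
  have hβj : ∀ g, homotopy b α g ∈ I ^ j := homotopy_mem b α _ hαj
  have hβI : ∀ g, homotopy b α g ∈ I := fun g =>
    Ideal.pow_le_self (by omega) (hβj g)
  have hunit : ∀ g, IsUnit (1 + homotopy b α g) := fun g => isUnit_one_add_of_mem I hJ (hβI g)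
  have hsα : ∀ (g : H) (p : H × H), g • α p ∈ I ^ j := fun g p => smul_mem_pow I hI j g (hαj p)
  refine ⟨fun g => (hunit g).unit, fun g => ?_, fun g h => ?_⟩
  · rw [mem_unitFil_iff, IsUnit.unit_spec, add_sub_cancel_left]
    exact hβj g
  · have hgrp : c (g, h) / (g • (hunit h).unit / (hunit (g * h)).unit * (hunit g).unit) =
        (c (g, h) * (hunit (g * h)).unit) / (g • (hunit h).unit * (hunit g).unit) := by
      rw [div_mul_eq_mul_div, div_div_eq_mul_div]
    rw [hgrp, div_mem_unitFil_iff]
    simp only [Units.val_mul, coe_unitsAct_smul, IsUnit.unit_spec, hαc, smul_add, smul_one]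
    -- the cocycle defect
    have hE : ∀ k : H, g • α (h, k) - α (g * h, k) + α (g, h * k) - α (g, h) ∈ I ^ (j + 1) := by
      intro k
      have h1 := congrArg (fun u : Rˣ => (u : R)) (hc g h k)
      simp only [Units.val_mul, coe_unitsAct_smul, hαc, smul_add, smul_one] at h1
      have h2 : g • α (h, k) - α (g * h, k) + α (g, h * k) - α (g, h) =
          α (g * h, k) * α (g, h) - g • α (h, k) * α (g, h * k) := by
        linear_combination -h1
      rw [h2]
      exact (I ^ (j + 1)).sub_mem (mul_mem_pow_succ I hj (hαj _) (hαj _))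
        (mul_mem_pow_succ I hj (hsα g _) (hαj _))
    have hF := homotopy_formula b hb α g h
    have hmem : g • homotopy b α h - homotopy b α (g * h) + homotopy b α g - α (g, h) ∈
        I ^ (j + 1) := by
      rw [hF]
      exact (I ^ (j + 1)).sum_mem fun k _ => (I ^ (j + 1)).mul_mem_left _ (hE k)
    have hsβ : g • homotopy b α h ∈ I ^ j := smul_mem_pow I hI j g (hβj h)
    have hfin : (1 + α (g, h)) * (1 + homotopy b α (g * h)) -
        (1 + g • homotopy b α h) * (1 + homotopy b α g) =
        -(g • homotopy b α h - homotopy b α (g * h) + homotopy b α g - α (g, h)) +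
          (α (g, h) * homotopy b α (g * h) - g • homotopy b α h * homotopy b α g) := by
      ring
    rw [hfin]
    exact (I ^ (j + 1)).add_mem ((I ^ (j + 1)).neg_mem hmem)
      ((I ^ (j + 1)).sub_mem (mul_mem_pow_succ I hj (hαj _) (hβj _))
        (mul_mem_pow_succ I hj hsβ (hβj _)))

end Graded

end Fermat.Agent.S55.G.SIndH237.H95
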