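/-
S55 / layer G / G-SIND:UCT (helper95).  Part 5: the abstract theorem.

Let `R` be a commutative ring, complete for an ideal `I` with `R ⧸ I` finite, and let a finite
group `H` act on `R` by ring automorphisms stabilising `I`, with trivial inertia at every maximal
ideal.  Then every multiplicative `1`-cocycle and every multiplicative `2`-cocycle of `H` with
values in `Rˣ` is a coboundary.
-/
import Fermat.Agent.S55.G.SIndH237.H95.Graded
import Fermat.Agent.S55.G.SIndH237.H95.FinVanish
import Fermat.Agent.S55.Local.H478.FiltH2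

set_option autoImplicit false
set_option linter.unusedSectionVars false
set_option linter.style.haveILetI false

namespace Fermat.Agent.S55.G.SIndH237.H95

open CategoryTheory groupCohomology Fermat.Agent.S55.T

attribute [local instance] unitsAct

section FiniteRing

variable {A : Type} [CommRing A] [Finite A] {H : Type} [Group H] [Finite H]
  [MulSemiringAction H A]

lemma finite_maximal_of_finite : {m : Ideal A | m.IsMaximal}.Finite := by
  haveI : Finite (Ideal A) :=
    Finite.of_injective (fun J : Ideal A => (J : Set A)) SetLike.coe_injective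
  exact Set.toFinite _

/-- `H¹(K, Aˣ) = 0` for every subgroup `K ≤ H` (finite ring, trivial inertia). -/
theorem isZero_H1_units_of_finite
    (hin : ∀ m : Ideal A, m.IsMaximal → ∀ h : H, (∀ x : A, h • x - x ∈ m) → h = 1)
    (K : Subgroup H) :
    Limits.IsZero (groupCohomology (resSub (Rep.ofMulDistribMulAction H Aˣ) K) 1) := by
  refine isZero_of_forall_eq_zero fun x => ?_
  induction x using H1_induction_on with
  | h c =>
    rw [H1π_eq_zero_iff]
    have hc := (mem_cocycles₁_iff (c : K → _)).1 c.2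
    letI := Fintype.ofFinite K
    have hf : IsMulCocycle₁ (fun k : K => (Additive.toMul (c.1 k) : Aˣ)) := fun g h => hc g h
    have hinK : ∀ m : Ideal A, m.IsMaximal → ∀ k : K, (∀ x : A, k • x - x ∈ m) → k = 1 :=
      fun m hm k hk => Subtype.ext (hin m hm (k : H) hk)
    obtain ⟨x, hx⟩ := isMulCoboundary₁_of_trivial_inertia finite_maximal_of_finite hinK _ hf
    exact ⟨Additive.ofMul x, funext fun g => congrArg Additive.ofMul (hx g)⟩

/-- `H²(H, Aˣ) = 0` on the level of cocycles (finite ring, trivial inertia). -/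
theorem isMulCoboundary₂_units_of_finite
    (hin : ∀ m : Ideal A, m.IsMaximal → ∀ h : H, (∀ x : A, h • x - x ∈ m) → h = 1)
    (c : H × H → Aˣ) (hc : IsMulCocycle₂ c) : IsMulCoboundary₂ c := by
  have hz := isZero_H2_self_of_finite (Rep.ofMulDistribMulAction H Aˣ)
    (inferInstanceAs (Finite (Additive Aˣ))) (fun K => isZero_H1_units_of_finite hin K)
  have h0 : H2π _ (cocyclesOfIsMulCocycle₂ hc) = 0 := eq_zero_of_isZero hz _
  rw [H2π_eq_zero_iff] at h0
  exact isMulCoboundary₂_of_mem_coboundaries₂ _ h0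

end FiniteRing

section Complete

variable {R : Type} [CommRing R] {H : Type} [Group H] [Finite H] [MulSemiringAction H R]
  (I : Ideal R)

lemma finite_maximal_of_finite_quotient (hJ : I ≤ Ideal.jacobson ⊥) [Finite (R ⧸ I)] :
    {m : Ideal R | m.IsMaximal}.Finite := by
  haveI : Finite (Ideal (R ⧸ I)) :=
    Finite.of_injective (fun J : Ideal (R ⧸ I) => (J : Set (R ⧸ I))) SetLike.coe_injective
  refine Set.Finite.of_finite_image (f := fun m : Ideal R => m.map (Ideal.Quotient.mk I))
    (Set.toFinite _) ?_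
  intro m₁ h₁ m₂ h₂ h
  have key : ∀ m : Ideal R, m.IsMaximal →
      (m.map (Ideal.Quotient.mk I)).comap (Ideal.Quotient.mk I) = m := by
    intro m hm
    rw [Ideal.comap_map_of_surjective _ Ideal.Quotient.mk_surjective, ← RingHom.ker_eq_comap_bot,
      Ideal.mk_ker]
    exact sup_eq_left.2 (hJ.trans (sInf_le ⟨bot_le, hm⟩))
  rw [← key m₁ h₁, ← key m₂ h₂]
  exact congrArg _ h

lemma inertia_quot (hI : ∀ (h : H) (x : R), x ∈ I → h • x ∈ I)
    (hin : ∀ m : Ideal R, m.IsMaximal → ∀ h : H, (∀ x : R, h • x - x ∈ m) → h = 1) :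
    letI := quotAct I hI
    ∀ m : Ideal (R ⧸ I), m.IsMaximal → ∀ h : H, (∀ x : R ⧸ I, h • x - x ∈ m) → h = 1 := by
  intro m hm h hx
  haveI := hm
  refine hin (m.comap (Ideal.Quotient.mk I))
    (Ideal.comap_isMaximal_of_surjective _ Ideal.Quotient.mk_surjective) h fun r => ?_
  rw [Ideal.mem_comap, map_sub]
  exact hx (Ideal.Quotient.mk I r)

lemma mem_unitFil_one_iff (u : Rˣ) :
    u ∈ unitFil I 1 ↔ Units.map (Ideal.Quotient.mk I : R →* R ⧸ I) u = 1 := by
  rw [mem_unitFil_iff, pow_one, ← Ideal.Quotient.eq, map_one, Units.ext_iff]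
  rfl

/-- **H¹**: Hilbert 90 for the units of `R`. -/
theorem isMulCoboundary₁_of_complete [IsAdicComplete I R] [Finite (R ⧸ I)]
    (hin : ∀ m : Ideal R, m.IsMaximal → ∀ h : H, (∀ x : R, h • x - x ∈ m) → h = 1)
    (c : H → Rˣ) (hc : IsMulCocycle₁ c) : IsMulCoboundary₁ c := by
  letI := Fintype.ofFinite H
  exact isMulCoboundary₁_of_trivial_inertia
    (finite_maximal_of_finite_quotient I (IsAdicComplete.le_jacobson_bot I)) hin c hc

/-- The residual step (`j = 0`) for `2`-cocycles. -/
theorem zero_step₂ [IsAdicComplete I R] [Finite (R ⧸ I)] (hI : ∀ (h : H) (x : R), x ∈ I → h • x ∈ I)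
    (hin : ∀ m : Ideal R, m.IsMaximal → ∀ h : H, (∀ x : R, h • x - x ∈ m) → h = 1)
    (c : H × H → Rˣ) (hc : IsMulCocycle₂ c) :
    ∃ x : H → Rˣ, ∀ g h, c (g, h) / (g • x h / x (g * h) * x g) ∈ unitFil I 1 := by
  letI := quotAct I hI
  have hJ : I ≤ Ideal.jacobson ⊥ := IsAdicComplete.le_jacobson_bot I
  set π : Rˣ →* (R ⧸ I)ˣ := Units.map (Ideal.Quotient.mk I : R →* R ⧸ I) with hπ
  have hπsmul : ∀ (g : H) (u : Rˣ), π (g • u) = g • π u := fun g u => Units.ext rfl
  have hc' : IsMulCocycle₂ (fun p : H × H => π (c p)) := by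
    intro g h j
    have := congrArg π (hc g h j)
    simpa only [map_mul, hπsmul] using this
  obtain ⟨y, hy⟩ := isMulCoboundary₂_units_of_finite (inertia_quot I hI hin) _ hc'
  have hlift : ∀ g : H, ∃ u : Rˣ, π u = y g := by
    intro g
    obtain ⟨u, hu⟩ := exists_unit_lift I hJ (y g)
    exact ⟨u, Units.ext hu⟩
  choose x hx using hlift
  refine ⟨x, fun g h => ?_⟩
  rw [mem_unitFil_one_iff, ← hπ, map_div, map_mul, map_div, hπsmul, hx, hx, hx, hy g h]
  exact div_self' _

/-- **H²**: every `2`-cocycle with values in `Rˣ` is a coboundary. -/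
theorem isMulCoboundary₂_of_complete [IsAdicComplete I R] [Finite (R ⧸ I)]
    (hI : ∀ (h : H) (x : R), x ∈ I → h • x ∈ I)
    (hin : ∀ m : Ideal R, m.IsMaximal → ∀ h : H, (∀ x : R, h • x - x ∈ m) → h = 1)
    (c : H × H → Rˣ) (hc : IsMulCocycle₂ c) : IsMulCoboundary₂ c := by
  letI := Fintype.ofFinite H
  have hJ : I ≤ Ideal.jacobson ⊥ := IsAdicComplete.le_jacobson_bot I
  obtain ⟨b, hb⟩ := exists_trace_eq_one (H := H)
    (finite_maximal_of_finite_quotient I hJ) hin
  obtain ⟨x, -, hx⟩ := Fermat.Agent.S55.Local.H478.filtH2 H Rˣ (unitFil I)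
    (unitFil_anti I) (fun j g u hu => smul_mem_unitFil I hI j g hu)
    (unitFil_complete I) (unitFil_separated I)
    (fun j c hc hcj => by
      rcases Nat.eq_zero_or_pos j with rfl | hj
      · obtain ⟨x, hx⟩ := zero_step₂ I hI hin c hc
        exact ⟨x, fun g => mem_unitFil_zero I _, hx⟩
      · exact graded_step₂ I hJ hI b hb j hj c hc hcj)
    c hc (fun p => mem_unitFil_zero I _)
  exact ⟨x, hx⟩

end Complete

end Fermat.Agent.S55.G.SIndH237.H95
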