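/-
S55 / layer G / G-SIND:UCT (helper95).  Part 6: structure of the integral model `RS T L`.

With `n = ∏_{q ∈ T} q` and `I = n · RS`: `RS` is `I`-adically complete, `RS ⧸ I` is finite.
(Coordinates with respect to an integral basis: `H63.coord63`; estimates: `H959`.)
-/
import Fermat.Agent.S55.G.SIndH237.IntH63
import Fermat.Agent.S55.G.SIndH237.ApproxH959

set_option autoImplicit false
set_option linter.unusedSectionVars false
set_option linter.style.haveILetI false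

open scoped NumberField TensorProduct
open IsDedekindDomain

noncomputable section

namespace Fermat.Agent.S55.G.SIndH237.H95

open Fermat.Agent.S55.G Fermat.Agent.S55.G.SIndH237 Fermat.Agent.S55.G.SIndH237.H63
  Fermat.Agent.S55.G.SIndH237.H959

variable (T : Finset Nat.Primes) (L : Type) [Field L] [NumberField L]

local notation "ιB" => Module.Free.ChooseBasisIndex ℤ (𝓞 L)

/-! ## Coordinates -/

/-- All coordinates of `z` are divisible by `n ^ N` in `ℤ_T`. -/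
def CoordLe (N : ℕ) (z : AS T L) : Prop :=
  ∀ (k : ιB) (q : T), ‖QS.toPi T (coord63 T L k z) q‖ ≤ ‖((nT T : ℕ) : Qq q.1)‖ ^ N

lemma coordLe_zero_iff (z : AS T L) : CoordLe T L 0 z ↔ z ∈ RS T L := by
  constructor
  · intro h
    rw [sum_coord63 T L z]
    refine (RS T L).sum_mem fun k _ => ?_
    rw [NumberField.integralBasis_apply]
    exact tmul_mem_RS T L _ (fun q => by simpa using h k q)
  · intro h k q
    simpa using good63_of_mem_RS T L h k q

lemma coord_basis_tmul (k j : ιB) (c : QS T) :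
    coord63 T L k ((NumberField.integralBasis L j) ⊗ₜ[ℚ] c) = if j = k then c else 0 := by
  classical
  rw [coord63_tmul, Module.Basis.repr_self, Finsupp.single_apply]
  split_ifs <;> simp

lemma coord_sum_basis_tmul (k : ιB) (c : ιB → QS T) :
    coord63 T L k (∑ j : ιB, (NumberField.integralBasis L j) ⊗ₜ[ℚ] (c j)) = c k := by
  classical
  rw [map_sum]
  simp only [coord_basis_tmul]
  rw [Finset.sum_ite_eq' Finset.univ k c]
  simp

lemma coord_natCast_pow_mul (N : ℕ) (k : ιB) (z : AS T L) :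
    coord63 T L k (((nT T : ℕ) : AS T L) ^ N * z) = (nT T : QS T) ^ N * coord63 T L k z := by
  conv_lhs => rw [sum_coord63 T L z, Finset.mul_sum]
  simp only [natCast_pow_mul_tmul]
  rw [coord_sum_basis_tmul]

lemma coordLe_pow_mul {N : ℕ} {y : AS T L} (hy : y ∈ RS T L) :
    CoordLe T L N (((nT T : ℕ) : AS T L) ^ N * y) := by
  intro k q
  rw [coord_natCast_pow_mul, toPi_mul, toPi_pow, toPi_natCast, norm_mul, norm_pow]
  have h1 := good63_of_mem_RS T L hy k q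
  calc ‖((nT T : ℕ) : Qq q.1)‖ ^ N * ‖QS.toPi T (coord63 T L k y) q‖
      ≤ ‖((nT T : ℕ) : Qq q.1)‖ ^ N * 1 :=
        mul_le_mul_of_nonneg_left h1 (pow_nonneg (norm_nonneg _) _)
    _ = ‖((nT T : ℕ) : Qq q.1)‖ ^ N := mul_one _

lemma exists_eq_pow_mul_of_coordLe {N : ℕ} {z : AS T L} (h : CoordLe T L N z) :
    ∃ y ∈ RS T L, z = ((nT T : ℕ) : AS T L) ^ N * y := by
  have h1 : ∀ k : ιB, ∃ d' ∈ ZS T, coord63 T L k z = (nT T : QS T) ^ N * d' :=
    fun k => exists_eq_pow_mul_of_norm_le T N _ (h k)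
  choose d hd hd' using h1
  refine ⟨∑ k : ιB, (NumberField.integralBasis L k) ⊗ₜ[ℚ] (d k), ?_, ?_⟩
  · refine (RS T L).sum_mem fun k _ => ?_
    rw [NumberField.integralBasis_apply]
    exact tmul_mem_RS T L _ (hd k)
  · conv_lhs => rw [sum_coord63 T L z]
    rw [Finset.mul_sum]
    refine Finset.sum_congr rfl fun k _ => ?_
    rw [natCast_pow_mul_tmul, hd' k]

lemma coordLe_iff {N : ℕ} {z : AS T L} :
    CoordLe T L N z ↔ ∃ y ∈ RS T L, z = ((nT T : ℕ) : AS T L) ^ N * y :=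
  ⟨exists_eq_pow_mul_of_coordLe T L, fun ⟨_, hy, h⟩ => h ▸ coordLe_pow_mul T L hy⟩

lemma coordLe_sub {N : ℕ} {z z' : AS T L} (h : CoordLe T L N z) (h' : CoordLe T L N z') :
    CoordLe T L N (z - z') := by
  intro k q
  haveI : Fact (q.1 : ℕ).Prime := ⟨q.1.2⟩
  rw [map_sub, toPi_sub, sub_eq_add_neg]
  refine (Padic.nonarchimedean _ _).trans (max_le (h k q) ?_)
  rw [norm_neg]
  exact h' k q

lemma eq_zero_of_coordLe {z : AS T L} (h : ∀ N, CoordLe T L N z) : z = 0 := by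
  have h0 : ∀ k : ιB, coord63 T L k z = 0 := by
    intro k
    refine QS_ext T fun q => ?_
    have h1 : ∀ N : ℕ, ‖QS.toPi T (coord63 T L k z) q‖ ≤ ‖((nT T : ℕ) : Qq q.1)‖ ^ N :=
      fun N => h N k q
    have h2 : ‖QS.toPi T (coord63 T L k z) q‖ ≤ 0 :=
      ge_of_tendsto' (tendsto_pow_atTop_nhds_zero_of_lt_one (norm_nonneg _)
        (norm_nT_lt_one T q)) h1
    rw [norm_le_zero_iff] at h2
    rw [h2]
    rfl
  rw [sum_coord63 T L z]
  simp [h0]

/-! ## Limits -/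

lemma exists_limit_padic (q : T) (c : ℕ → Qq q.1)
    (hc : ∀ m n, m ≤ n → ‖c m - c n‖ ≤ ‖((nT T : ℕ) : Qq q.1)‖ ^ m) :
    ∃ ℓ : Qq q.1, ∀ m, ‖c m - ℓ‖ ≤ ‖((nT T : ℕ) : Qq q.1)‖ ^ m := by
  haveI : Fact (q.1 : ℕ).Prime := ⟨q.1.2⟩
  have hcs : CauchySeq c := by
    refine cauchySeq_of_le_geometric ‖((nT T : ℕ) : Qq q.1)‖ 1 (norm_nT_lt_one T q) fun n => ?_
    rw [dist_eq_norm, one_mul]
    exact hc n (n + 1) (Nat.le_succ n)
  obtain ⟨ℓ, hℓ⟩ := cauchySeq_tendsto_of_complete hcs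
  refine ⟨ℓ, fun m => ?_⟩
  have h1 : Filter.Tendsto (fun n => ‖c m - c n‖) Filter.atTop (nhds ‖c m - ℓ‖) :=
    (tendsto_const_nhds.sub hℓ).norm
  exact le_of_tendsto h1 (Filter.eventually_atTop.2 ⟨m, fun n hn => hc m n hn⟩)

lemma exists_limit_QS (c : ℕ → QS T)
    (hc : ∀ m n, m ≤ n → ∀ q : T,
      ‖QS.toPi T (c m - c n) q‖ ≤ ‖((nT T : ℕ) : Qq q.1)‖ ^ m) :
    ∃ ℓ : QS T, ∀ (m : ℕ) (q : T),
      ‖QS.toPi T (c m - ℓ) q‖ ≤ ‖((nT T : ℕ) : Qq q.1)‖ ^ m := by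
  have h1 : ∀ q : T, ∃ ℓ : Qq q.1, ∀ m,
      ‖QS.toPi T (c m) q - ℓ‖ ≤ ‖((nT T : ℕ) : Qq q.1)‖ ^ m :=
    fun q => exists_limit_padic T q (fun n => QS.toPi T (c n) q) fun m n hmn => by
      have := hc m n hmn q
      rwa [toPi_sub] at this
  choose ℓ hℓ using h1
  refine ⟨(QS.toPi T).symm ℓ, fun m q => ?_⟩
  rw [toPi_sub, toPi_symm_apply]
  exact hℓ q m

/-! ## The ideal `n · RS` -/

/-- The ideal `I = n · RS` of the integral model. -/
def nIdeal : Ideal (RS T L) := Ideal.span {((nT T : ℕ) : RS T L)}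

lemma mem_nIdeal_pow_iff (N : ℕ) (x : RS T L) :
    x ∈ nIdeal T L ^ N ↔ CoordLe T L N (x : AS T L) := by
  rw [nIdeal, Ideal.span_singleton_pow, Ideal.mem_span_singleton', coordLe_iff]
  constructor
  · rintro ⟨a, rfl⟩
    refine ⟨a, a.2, ?_⟩
    rw [Subring.coe_mul, Subring.coe_pow, Subring.coe_natCast, mul_comm]
  · rintro ⟨y, hy, h⟩
    refine ⟨⟨y, hy⟩, Subtype.ext ?_⟩
    rw [Subring.coe_mul, Subring.coe_pow, Subring.coe_natCast, h, mul_comm]

lemma mem_nIdeal_iff (x : RS T L) : x ∈ nIdeal T L ↔ CoordLe T L 1 (x : AS T L) := by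
  rw [← mem_nIdeal_pow_iff, pow_one]

instance isHausdorff_nIdeal : IsHausdorff (nIdeal T L) (RS T L) where
  haus' x hx := by
    refine Subtype.ext (eq_zero_of_coordLe T L fun N => ?_)
    have := hx N
    rw [SModEq.zero, smul_eq_mul, Ideal.mul_top] at this
    exact (mem_nIdeal_pow_iff T L N x).1 this

instance isPrecomplete_nIdeal : IsPrecomplete (nIdeal T L) (RS T L) where
  prec' f hf := by
    have hf' : ∀ m n, m ≤ n → CoordLe T L m ((f m : AS T L) - (f n : AS T L)) := by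
      intro m n hmn
      have := hf hmn
      rw [SModEq.sub_mem, smul_eq_mul, Ideal.mul_top, mem_nIdeal_pow_iff] at this
      exact this
    have h1 : ∀ k : ιB, ∃ ℓ : QS T, ∀ (m : ℕ) (q : T),
        ‖QS.toPi T (coord63 T L k (f m : AS T L) - ℓ) q‖ ≤ ‖((nT T : ℕ) : Qq q.1)‖ ^ m :=
      fun k => exists_limit_QS T (fun n => coord63 T L k (f n : AS T L)) fun m n hmn q => by
        have := hf' m n hmn k q
        rwa [map_sub] at this
    choose ℓ hℓ using h1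
    set Lim : AS T L := ∑ j : ιB, (NumberField.integralBasis L j) ⊗ₜ[ℚ] (ℓ j) with hLim
    have hL : ∀ m, CoordLe T L m ((f m : AS T L) - Lim) := by
      intro m k q
      rw [map_sub, hLim, coord_sum_basis_tmul]
      exact hℓ k m q
    have hmem : Lim ∈ RS T L := by
      rw [← coordLe_zero_iff]
      have h0 : CoordLe T L 0 (f 0 : AS T L) := (coordLe_zero_iff T L _).2 (f 0).2
      have := coordLe_sub T L h0 (hL 0)
      rwa [sub_sub_cancel] at this
    refine ⟨⟨Lim, hmem⟩, fun n => ?_⟩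
    rw [SModEq.sub_mem, smul_eq_mul, Ideal.mul_top, mem_nIdeal_pow_iff]
    exact hL n

instance isAdicComplete_nIdeal : IsAdicComplete (nIdeal T L) (RS T L) where

/-! ## Finiteness of `RS ⧸ n · RS` -/

lemma exists_nat_lt_approx (c : QS T) (hc : c ∈ ZS T) :
    ∃ r : ℕ, r < nT T ∧ ∀ q : T, ‖QS.toPi T c q - (r : Qq q.1)‖ ≤ ‖((nT T : ℕ) : Qq q.1)‖ ^ 1 := by
  obtain ⟨r, hr⟩ := exists_nat_approx T c hc 1
  refine ⟨r % nT T, Nat.mod_lt _ (nT_pos T), fun q => ?_⟩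
  haveI : Fact (q.1 : ℕ).Prime := ⟨q.1.2⟩
  have h1 : QS.toPi T c q - ((r % nT T : ℕ) : Qq q.1) =
      (QS.toPi T c q - (r : Qq q.1)) + ((nT T : ℕ) : Qq q.1) * ((r / nT T : ℕ) : Qq q.1) := by
    have h2 : ((r : ℕ) : Qq q.1) =
        ((nT T : ℕ) : Qq q.1) * ((r / nT T : ℕ) : Qq q.1) + ((r % nT T : ℕ) : Qq q.1) := by
      rw [← Nat.cast_mul, ← Nat.cast_add, Nat.div_add_mod]
    rw [h2]
    ring
  rw [h1]
  refine (Padic.nonarchimedean _ _).trans (max_le (hr q) ?_)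
  rw [norm_mul, pow_one]
  calc ‖((nT T : ℕ) : Qq q.1)‖ * ‖((r / nT T : ℕ) : Qq q.1)‖
      ≤ ‖((nT T : ℕ) : Qq q.1)‖ * 1 :=
        mul_le_mul_of_nonneg_left (by
          have := Padic.norm_int_le_one (p := (q.1 : ℕ)) ((r / nT T : ℕ) : ℤ)
          rwa [Int.cast_natCast] at this) (norm_nonneg _)
    _ = ‖((nT T : ℕ) : Qq q.1)‖ := mul_one _

lemma natCast_mem_ZS (r : ℕ) : (r : QS T) ∈ ZS T := natCast_mem _ _

instance finite_quotient_nIdeal : Finite (RS T L ⧸ nIdeal T L) := by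
  classical
  let φ : (ιB → Fin (nT T)) → RS T L ⧸ nIdeal T L := fun r =>
    Ideal.Quotient.mk (nIdeal T L)
      ⟨∑ j : ιB, (NumberField.integralBasis L j) ⊗ₜ[ℚ] (((r j : ℕ) : QS T)),
        (RS T L).sum_mem fun k _ => by
          rw [NumberField.integralBasis_apply]
          exact tmul_mem_RS T L _ (natCast_mem_ZS T _)⟩
  refine Finite.of_surjective φ fun x => ?_
  obtain ⟨x, rfl⟩ := Ideal.Quotient.mk_surjective x
  have h1 : ∀ k : ιB, ∃ r : ℕ, r < nT T ∧ ∀ q : T,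
      ‖QS.toPi T (coord63 T L k (x : AS T L)) q - (r : Qq q.1)‖ ≤
        ‖((nT T : ℕ) : Qq q.1)‖ ^ 1 :=
    fun k => exists_nat_lt_approx T _ (good63_of_mem_RS T L x.2 k)
  choose r hr hr' using h1
  refine ⟨fun k => ⟨r k, hr k⟩, ?_⟩
  rw [eq_comm, Ideal.Quotient.eq, mem_nIdeal_iff]
  intro k q
  have hsub : ((x - ⟨∑ j : ιB, (NumberField.integralBasis L j) ⊗ₜ[ℚ] (((r j : ℕ) : QS T)),
      (RS T L).sum_mem fun k _ => by
        rw [NumberField.integralBasis_apply]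
        exact tmul_mem_RS T L _ (natCast_mem_ZS T _)⟩ : RS T L) : AS T L) =
      (x : AS T L) - ∑ j : ιB, (NumberField.integralBasis L j) ⊗ₜ[ℚ] (((r j : ℕ) : QS T)) := rfl
  change ‖QS.toPi T (coord63 T L k ((x - ⟨∑ j : ιB,
    (NumberField.integralBasis L j) ⊗ₜ[ℚ] (((r j : ℕ) : QS T)), _⟩ : RS T L) : AS T L)) q‖ ≤ _
  rw [hsub, map_sub, coord_sum_basis_tmul, toPi_sub, toPi_natCast]
  exact hr' k q

end Fermat.Agent.S55.G.SIndH237.H95
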