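/-
S55 / layer G / G-SIND:UCT (helper95).  Part 7: `UnitsCohTrivSpec`.

Unit idèles at unramified primes are cohomologically trivial in degrees `1` and `2`:
the abstract theorem (`Complete.lean`) applied to `R = RS T L`, `I = n · RS`.
-/
import Fermat.Agent.S55.G.SIndH237.H95.Struct
import Fermat.Agent.S55.G.SIndH237.H95.Complete

set_option autoImplicit false
set_option linter.unusedSectionVars false
set_option linter.style.haveILetI false

open scoped NumberField TensorProduct
open IsDedekindDomain CategoryTheory groupCohomology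

noncomputable section

namespace Fermat.Agent.S55.G.SIndH237.H95

open Fermat.Agent.S55.G Fermat.Agent.S55.G.SIndH237 Fermat.Agent.S55.G.SIndH237.H63
  Fermat.Agent.S55.G.SIndH237.H959 Fermat.Agent.S55.T

variable (T : Finset Nat.Primes) (G L : Type) [Group G] [Field L] [NumberField L]
  [MulSemiringAction G L]

/-! ## The Galois action on the integral model -/

/-- The action of `G` on the integral model `RS T L` (a definition, NOT a global instance). -/
@[reducible] def rsAct : MulSemiringAction G (RS T L) where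
  smul g z := ⟨asAut T G L g z.1, asAut_mem_RS T G L g z.2⟩
  one_smul z := Subtype.ext (by
    change asAut T G L 1 z.1 = z.1
    rw [map_one]; rfl)
  mul_smul g h z := Subtype.ext (by
    change asAut T G L (g * h) z.1 = asAut T G L g (asAut T G L h z.1)
    rw [map_mul]; rfl)
  smul_zero g := Subtype.ext (map_zero (asAut T G L g))
  smul_add g x y := Subtype.ext (map_add (asAut T G L g) x.1 y.1)
  smul_one g := Subtype.ext (map_one (asAut T G L g))
  smul_mul g x y := Subtype.ext (map_mul (asAut T G L g) x.1 y.1)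

attribute [local instance] rsAct unitsAct

lemma coe_rsAct_smul (g : G) (z : RS T L) : ((g • z : RS T L) : AS T L) = asAut T G L g z := rfl

lemma rsAct_smul_natCast (g : G) (m : ℕ) : g • ((m : ℕ) : RS T L) = m :=
  Subtype.ext (by rw [coe_rsAct_smul, Subring.coe_natCast, map_natCast])

lemma smul_mem_nIdeal (g : G) (x : RS T L) (hx : x ∈ nIdeal T L) : g • x ∈ nIdeal T L := by
  rw [nIdeal, Ideal.mem_span_singleton'] at hx ⊢
  obtain ⟨a, rfl⟩ := hx
  exact ⟨g • a, by rw [smul_mul', rsAct_smul_natCast]⟩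

/-! ## Inertia -/

/-- The ring homomorphism `𝒪_L → RS`, `a ↦ a ⊗ 1`. -/
def intToRS : 𝓞 L →+* RS T L :=
  (((asDiag T L : L →ₐ[ℚ] AS T L) : L →+* AS T L).comp (algebraMap (𝓞 L) L)).codRestrict
    (RS T L) (fun a => tmul_one_mem_RS T L a)

lemma coe_intToRS (a : 𝓞 L) : ((intToRS T L a : RS T L) : AS T L) = (a : L) ⊗ₜ[ℚ] (1 : QS T) :=
  rfl

lemma intToRS_smul (g : G) (a : 𝓞 L) : intToRS T L (g • a) = g • intToRS T L a :=
  Subtype.ext (by
    rw [coe_rsAct_smul, coe_intToRS, coe_intToRS, asAut_tmul]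
    rfl)

lemma natCast_nT_mem_of_isMaximal (m : Ideal (RS T L)) (hm : m.IsMaximal) :
    ((nT T : ℕ) : RS T L) ∈ m := by
  have hJ : nIdeal T L ≤ Ideal.jacobson ⊥ := IsAdicComplete.le_jacobson_bot (nIdeal T L)
  exact (hJ.trans (sInf_le ⟨bot_le, hm⟩)) (Ideal.subset_span rfl)

/-- Trivial inertia at the maximal ideals of `RS`, from `IsUnramAbove`. -/
lemma inertia_RS [FaithfulSMul G L] (hun : IsUnramAbove T G L) (m : Ideal (RS T L))
    (hm : m.IsMaximal) (g : G) (hg : ∀ x : RS T L, g • x - x ∈ m) : g = 1 := by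
  haveI := hm
  set p : Ideal (𝓞 L) := m.comap (intToRS T L) with hp
  have hn : ((nT T : ℕ) : 𝓞 L) ∈ p := by
    rw [hp, Ideal.mem_comap, map_natCast]
    exact natCast_nT_mem_of_isMaximal T L m hm
  have hprime : p.IsPrime := Ideal.comap_isPrime _ _
  have hbot : p ≠ ⊥ := by
    intro h
    rw [h, Ideal.mem_bot] at hn
    exact nT_ne_zero T (by exact_mod_cast hn)
  let w : HeightOneSpectrum (𝓞 L) := ⟨p, hprime, hbot⟩
  have hab : IsAbove T L w := by
    have h1 : ((nT T : ℕ) : 𝓞 L) = ∏ q ∈ T, (((q : ℕ) : ℕ) : 𝓞 L) := by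
      rw [nT, Nat.cast_prod]
    rw [h1] at hn
    obtain ⟨q, hq, hqm⟩ := (Ideal.IsPrime.prod_mem_iff (hp := hprime)).1 hn
    exact ⟨q, hq, hqm⟩
  have htriv : ∀ x : L, g • x = x := hun w hab g fun a => by
    change g • a - a ∈ p
    rw [hp, Ideal.mem_comap, map_sub, intToRS_smul]
    exact hg _
  exact FaithfulSMul.eq_of_smul_eq_smul (α := L) fun x => by rw [htriv x, one_smul]

/-! ## Units of the integral model versus `U_T(L)` -/

/-- An element of `U_T(L)` as a unit of the ring `RS T L`. -/
def toRU (u : (UT T L).toIntSubmodule) : (RS T L)ˣ where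
  val := ⟨((Additive.toMul u.1 : (AS T L)ˣ) : AS T L), u.2.1⟩
  inv := ⟨(((Additive.toMul u.1)⁻¹ : (AS T L)ˣ) : AS T L), u.2.2⟩
  val_inv := Subtype.ext (Units.mul_inv _)
  inv_val := Subtype.ext (Units.inv_mul _)

/-- A unit of the ring `RS T L` as an element of `U_T(L)`. -/
def ofRU (x : (RS T L)ˣ) : (UT T L).toIntSubmodule :=
  ⟨Additive.ofMul (Units.map ((RS T L).subtype : RS T L →* AS T L) x), ⟨x.1.2, x⁻¹.1.2⟩⟩

section Sub

variable (H : Subgroup G)

/-- `toRU` on the underlying module of the restricted representation. -/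
def toRUH (u : (resSub (URep T G L) H).V) : (RS T L)ˣ := toRU T L u

/-- `ofRU` into the underlying module of the restricted representation. -/
def ofRUH (x : (RS T L)ˣ) : (resSub (URep T G L) H).V := ofRU T L x

lemma toRUH_ofRUH (x : (RS T L)ˣ) : toRUH T G L H (ofRUH T G L H x) = x :=
  Units.ext (Subtype.ext rfl)

lemma toRUH_injective : Function.Injective (toRUH T G L H) := by
  intro u v h
  have h1 := congrArg (fun x : (RS T L)ˣ => ((x : RS T L) : AS T L)) h
  exact Subtype.ext (Additive.toMul.injective (Units.ext h1))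

lemma toRUH_add (u v : (resSub (URep T G L) H).V) :
    toRUH T G L H (u + v) = toRUH T G L H u * toRUH T G L H v := Units.ext (Subtype.ext rfl)

lemma toRUH_neg (u : (resSub (URep T G L) H).V) :
    toRUH T G L H (-u) = (toRUH T G L H u)⁻¹ := Units.ext (Subtype.ext rfl)

lemma toRUH_sub (u v : (resSub (URep T G L) H).V) :
    toRUH T G L H (u - v) = toRUH T G L H u / toRUH T G L H v := by
  rw [sub_eq_add_neg, toRUH_add, toRUH_neg, div_eq_mul_inv]

lemma toRUH_rho (g : H) (u : (resSub (URep T G L) H).V) :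
    toRUH T G L H ((resSub (URep T G L) H).ρ g u) = g • toRUH T G L H u :=
  Units.ext (Subtype.ext rfl)

end Sub

/-! ## The theorem -/

variable [Finite G] [FaithfulSMul G L]

lemma inertia_RS_sub (hun : IsUnramAbove T G L) (H : Subgroup G) (m : Ideal (RS T L))
    (hm : m.IsMaximal) (g : H) (hg : ∀ x : RS T L, g • x - x ∈ m) : g = 1 :=
  Subtype.ext (inertia_RS T G L hun m hm (g : G) hg)

theorem isZero_H1_URep (hun : IsUnramAbove T G L) (H : Subgroup G) :
    Limits.IsZero (groupCohomology (resSub (URep T G L) H) 1) := by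
  refine isZero_of_forall_eq_zero fun x => ?_
  induction x using H1_induction_on with
  | h c =>
    rw [H1π_eq_zero_iff]
    have hc := (mem_cocycles₁_iff (c : H → _)).1 c.2
    have hf : IsMulCocycle₁ (fun h : H => toRUH T G L H (c.1 h)) := by
      intro g h
      change toRUH T G L H (c.1 (g * h)) = g • toRUH T G L H (c.1 h) * toRUH T G L H (c.1 g)
      rw [← toRUH_rho, ← toRUH_add]
      exact congrArg (toRUH T G L H) (hc g h)
    obtain ⟨x, hx⟩ := isMulCoboundary₁_of_complete (H := H) (nIdeal T L)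
      (inertia_RS_sub T G L hun H) _ hf
    refine ⟨ofRUH T G L H x, funext fun g => ?_⟩
    apply toRUH_injective T G L H
    change toRUH T G L H ((resSub (URep T G L) H).ρ g (ofRUH T G L H x) - ofRUH T G L H x) =
      toRUH T G L H (c.1 g)
    rw [toRUH_sub, toRUH_rho, toRUH_ofRUH]
    exact hx g

theorem isZero_H2_URep (hun : IsUnramAbove T G L) (H : Subgroup G) :
    Limits.IsZero (groupCohomology (resSub (URep T G L) H) 2) := by
  refine isZero_of_forall_eq_zero fun x => ?_
  induction x using H2_induction_on with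
  | h c =>
    rw [H2π_eq_zero_iff]
    have hc := (mem_cocycles₂_iff (c : H × H → _)).1 c.2
    have hf : IsMulCocycle₂ (fun p : H × H => toRUH T G L H (c.1 p)) := by
      intro g h j
      change toRUH T G L H (c.1 (g * h, j)) * toRUH T G L H (c.1 (g, h)) =
        g • toRUH T G L H (c.1 (h, j)) * toRUH T G L H (c.1 (g, h * j))
      rw [← toRUH_rho, ← toRUH_add, ← toRUH_add]
      exact congrArg (toRUH T G L H) (hc g h j)
    obtain ⟨x, hx⟩ := isMulCoboundary₂_of_complete (H := H) (nIdeal T L)
      (fun h x hx => smul_mem_nIdeal T G L (h : G) x hx)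
      (inertia_RS_sub T G L hun H) _ hf
    refine ⟨fun g => ofRUH T G L H (x g), funext fun p => ?_⟩
    obtain ⟨g, h⟩ := p
    apply toRUH_injective T G L H
    change toRUH T G L H ((resSub (URep T G L) H).ρ g (ofRUH T G L H (x h)) -
      ofRUH T G L H (x (g * h)) + ofRUH T G L H (x g)) = toRUH T G L H (c.1 (g, h))
    rw [toRUH_add, toRUH_sub, toRUH_rho, toRUH_ofRUH, toRUH_ofRUH, toRUH_ofRUH]
    exact hx g h

/-- **SIND-UCT.** -/
theorem unitsCohTriv : UnitsCohTrivSpec := by
  intro T G L _ _ _ _ _ _ hun H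
  exact ⟨isZero_H1_URep T G L hun H, isZero_H2_URep T G L hun H⟩

end Fermat.Agent.S55.G.SIndH237.H95
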