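/-
S55 / layer G / leaf G-SIND (helper95): `SIndepSpec` closed.

All four sub-leaves of helper237's mini-architecture are proved on main:
`H959.approx`, `H63.int63`, `H870.prescribedOrd`, `H95.unitsCohTriv`; with layer T's twin
vanishing the assembly `sIndep_of` gives `SIndepSpec` unconditionally.
-/
import Fermat.Agent.S55.G.SIndH237.Assembly
import Fermat.Agent.S55.G.SIndH237.ApproxH959
import Fermat.Agent.S55.G.SIndH237.IntH63
import Fermat.Agent.S55.G.SIndH237.OrdH870
import Fermat.Agent.S55.G.SIndH237.H95.Main
import Fermat.Agent.S55.H295.TwinVanishing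

set_option autoImplicit false

namespace Fermat.Agent.S55.G.SIndH237.H95

/-- **G-SIND** (`SIndepSpec`, independence of `S`), unconditional. -/
theorem sIndep : Fermat.Agent.S55.G.SIndepSpec :=
  Fermat.Agent.S55.G.SIndH237.sIndep_of Fermat.Agent.S55.G.SIndH237.H959.approx
    Fermat.Agent.S55.G.SIndH237.H63.int63 Fermat.Agent.S55.G.SIndH237.H870.prescribedOrd
    unitsCohTriv Fermat.Agent.S55.H295.twinVanishing

end Fermat.Agent.S55.G.SIndH237.H95
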